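import Fermat.Agent.AbVar.Cube.Rigid

/-!
# Auxiliary facts for the curve joining a constant point to a generic point
-/

set_option autoImplicit false
set_option linter.style.haveILetI false
set_option linter.unusedSectionVars false

noncomputable section

namespace Fermat.Agent.AbVar

universe u

open Fermat.Agent.MCurve (IsFinOver)
open scoped Classical

/-- A homomorphism into an algebraically closed field extends along an integral extension of
domains. -/
theorem exists_extend_integral {K R S L : Type u} [Field K] [CommRing R] [CommRing S] [IsDomain S]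
    [Algebra K R] [Algebra R S] [Algebra K S] [IsScalarTower K R S] [Algebra.IsIntegral R S]
    (hinj : Function.Injective (algebraMap R S)) [Field L] [IsAlgClosed L] [Algebra K L]
    (g : R →ₐ[K] L) : ∃ h : S →ₐ[K] L, ∀ r, h (algebraMap R S r) = g r := by
  let P : Ideal R := RingHom.ker (g : R →+* L)
  haveI : P.IsPrime := RingHom.ker_isPrime _
  obtain ⟨Q, -, hQ, hQP⟩ := Ideal.exists_ideal_over_prime_of_isIntegral P (⊥ : Ideal S) (by
    rw [← RingHom.ker_eq_comap_bot, (RingHom.injective_iff_ker_eq_bot _).mp hinj]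
    exact bot_le)
  haveI := hQ
  haveI : IsDomain (S ⧸ Q) := Ideal.Quotient.isDomain Q
  haveI : IsDomain (R ⧸ P) := Ideal.Quotient.isDomain P
  letI : Algebra (R ⧸ P) (S ⧸ Q) := Ideal.Quotient.algebraQuotientOfLEComap hQP.ge
  haveI : IsScalarTower R (R ⧸ P) (S ⧸ Q) := IsScalarTower.of_algebraMap_eq fun r => rfl
  let gP : R ⧸ P →+* L := Ideal.Quotient.lift P (g : R →+* L) fun r hr => hr
  have hgP : Function.Injective gP := by
    rw [injective_iff_map_eq_zero]
    intro r hr
    obtain ⟨r, rfl⟩ := Ideal.Quotient.mk_surjective r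
    exact Ideal.Quotient.eq_zero_iff_mem.mpr hr
  letI : Algebra (R ⧸ P) L := gP.toAlgebra
  haveI : Module.IsTorsionFree (R ⧸ P) L :=
    Module.isTorsionFree_iff_faithfulSMul.mpr ((faithfulSMul_iff_algebraMap_injective _ _).mpr hgP)
  have hinjQ : Function.Injective (algebraMap (R ⧸ P) (S ⧸ Q)) := by
    rw [injective_iff_map_eq_zero]
    intro r hr
    obtain ⟨r, rfl⟩ := Ideal.Quotient.mk_surjective r
    rw [show algebraMap (R ⧸ P) (S ⧸ Q) (Ideal.Quotient.mk P r) =
      Ideal.Quotient.mk Q (algebraMap R S r) from rfl, Ideal.Quotient.eq_zero_iff_mem] at hr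
    exact Ideal.Quotient.eq_zero_iff_mem.mpr (hQP ▸ hr : r ∈ P)
  haveI : Module.IsTorsionFree (R ⧸ P) (S ⧸ Q) :=
    Module.isTorsionFree_iff_faithfulSMul.mpr ((faithfulSMul_iff_algebraMap_injective _ _).mpr hinjQ)
  haveI : Algebra.IsIntegral (R ⧸ P) (S ⧸ Q) := ⟨fun s => by
    obtain ⟨s, rfl⟩ := Ideal.Quotient.mk_surjective s
    exact ((Algebra.IsIntegral.isIntegral (R := R) s).map (Ideal.Quotient.mkₐ R Q)).tower_top⟩
  let e : S ⧸ Q →ₐ[R ⧸ P] L := IsAlgClosed.lift
  have he : ∀ r : R, e (Ideal.Quotient.mk Q (algebraMap R S r)) = g r := fun r =>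
    e.commutes (Ideal.Quotient.mk P r)
  refine ⟨{ toRingHom := (e : S ⧸ Q →+* L).comp (Ideal.Quotient.mk Q), commutes' := fun c => ?_ }, he⟩
  show e (Ideal.Quotient.mk Q (algebraMap K S c)) = _
  rw [IsScalarTower.algebraMap_apply K R S, he, g.commutes]

namespace Model

variable {K : Type u} [Field K] (M : Model K)

theorem isFractionRing_O (i : Fin (M.r + 1)) : IsFractionRing (M.O i) M.FA :=
  IsFractionRing.of_field (M.O i) M.FA fun x => by
    obtain ⟨a, ha, b, hb, -, rfl⟩ := M.frac i x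
    exact ⟨⟨a, ha⟩, ⟨b, hb⟩, rfl⟩

theorem exists_lift {i : Fin (M.r + 1)} {L : Type u} [Field L] [Algebra K L] (φ : M.O i →ₐ[K] L)
    (hφ : Function.Injective φ) : ∃ s : M.FA →ₐ[K] L, ∀ a : M.O i, s a = φ a := by
  haveI := M.isFractionRing_O i
  exact ⟨IsFractionRing.liftAlgHom (g := φ) hφ, fun a =>
    IsFractionRing.lift_algebraMap (g := (φ : M.O i →+* L)) hφ a⟩

/-- The subalgebra generated by the coordinates. -/
def coordAlg : Subalgebra K M.FA := Algebra.adjoin K (Set.range fun l => (M.z l : M.FA))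

theorem coordAlg_le : M.coordAlg ≤ M.O 0 :=
  Algebra.adjoin_le (Set.range_subset_iff.mpr fun l => (M.z l).2)

theorem mem_coordAlg (l : Fin M.g) : (M.z l : M.FA) ∈ M.coordAlg :=
  Algebra.subset_adjoin ⟨l, rfl⟩

/-- The coordinate subalgebra acts on the main chart. -/
@[reducible]
def algCoord : Algebra M.coordAlg (M.O 0) := (Subalgebra.inclusion M.coordAlg_le).toAlgebra

theorem isIntegral_coord : letI := M.algCoord; Algebra.IsIntegral M.coordAlg (M.O 0) := by
  letI := M.algCoord
  haveI : IsScalarTower M.coordAlg (M.O 0) M.FA := IsScalarTower.of_algebraMap_eq fun _ => rfl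
  exact ⟨fun a => (isIntegral_algHom_iff (IsScalarTower.toAlgHom M.coordAlg (M.O 0) M.FA)
    Subtype.val_injective).mp (M.z_integral a.1 a.2)⟩

theorem exists_hom_coord {L : Type u} [Field L] [IsAlgClosed L] [Algebra K L] (w : Fin M.g → L) :
    ∃ φ : M.O 0 →ₐ[K] L, ∀ l, φ (M.z l) = w l := by
  letI := M.algCoord
  haveI := M.isIntegral_coord
  haveI : IsScalarTower K M.coordAlg (M.O 0) := IsScalarTower.of_algebraMap_eq fun _ => rfl
  let g : M.coordAlg →ₐ[K] L :=
    (MvPolynomial.aeval w).comp M.z_indep.aevalEquiv.symm.toAlgHom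
  obtain ⟨h, hh⟩ := exists_extend_integral (R := M.coordAlg) (S := M.O 0)
    (Subalgebra.inclusion_injective M.coordAlg_le) g
  refine ⟨h, fun l => ?_⟩
  have hz : M.z_indep.aevalEquiv (MvPolynomial.X l) = ⟨M.z l, M.mem_coordAlg l⟩ :=
    Subtype.ext (by simp)
  have h1 := hh ⟨M.z l, M.mem_coordAlg l⟩
  rw [show algebraMap M.coordAlg (M.O 0) ⟨M.z l, M.mem_coordAlg l⟩ = M.z l from rfl] at h1
  rw [h1]
  show MvPolynomial.aeval w (M.z_indep.aevalEquiv.symm ⟨M.z l, M.mem_coordAlg l⟩) = w l
  rw [← hz, AlgEquiv.symm_apply_apply, MvPolynomial.aeval_X]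

theorem injective_of_indep {L : Type u} [Field L] [Algebra K L] (φ : M.O 0 →ₐ[K] L)
    (hφ : AlgebraicIndependent K fun l => φ (M.z l)) : Function.Injective φ := by
  letI := M.algCoord
  haveI := M.isIntegral_coord
  show Function.Injective φ.toRingHom
  rw [RingHom.injective_iff_ker_eq_bot]
  refine Ideal.eq_bot_of_comap_eq_bot (R := M.coordAlg) ((Submodule.eq_bot_iff _).mpr fun r hr => ?_)
  obtain ⟨p, rfl⟩ := M.z_indep.aevalEquiv.surjective r
  have e : Subalgebra.inclusion M.coordAlg_le (M.z_indep.aevalEquiv p) =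
      MvPolynomial.aeval M.z p := Subtype.ext (by
    show _ = (M.O 0).val (MvPolynomial.aeval M.z p)
    rw [MvPolynomial.comp_aeval_apply]
    exact M.z_indep.algebraMap_aevalEquiv p)
  have h1 : φ (MvPolynomial.aeval M.z p) = 0 := by rw [← e]; exact hr
  rw [MvPolynomial.comp_aeval_apply] at h1
  rw [hφ.eq_zero_of_aeval_eq_zero p h1]
  exact map_zero _

theorem pt_val (i : Fin (M.r + 1)) : M.pt i (M.O i).val = M.gen :=
  (M.glue (F := M.FA) (i := 0) (j := i) ((M.O 0 ⊔ M.O i).val)).symm

theorem eq_top_of_pt {E : IntermediateField K M.FA} {i : Fin (M.r + 1)}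
    (φ : M.O i →ₐ[K] E) (h : M.map E.val (M.pt i φ) = M.gen) : E = ⊤ := by
  rw [M.map_pt, ← M.pt_val i] at h
  have h1 := M.pt_injective h
  refine eq_top_iff.mpr fun y _ => ?_
  obtain ⟨a, ha, b, hb, -, rfl⟩ := M.frac i y
  refine div_mem ?_ ?_
  · rw [show a = E.val (φ ⟨a, ha⟩) from (DFunLike.congr_fun h1 (⟨a, ha⟩ : M.O i)).symm]
    exact (φ ⟨a, ha⟩).2
  · rw [show b = E.val (φ ⟨b, hb⟩) from (DFunLike.congr_fun h1 (⟨b, hb⟩ : M.O i)).symm]
    exact (φ ⟨b, hb⟩).2

theorem isTranscendenceBasis_z : IsTranscendenceBasis K (fun l => (M.z l : M.FA)) := by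
  haveI := M.isFractionRing_O 0
  refine M.z_indep.isTranscendenceBasis_iff_isAlgebraic.mpr ⟨fun y => ?_⟩
  obtain ⟨a, ha, b, hb, -, rfl⟩ := M.frac 0 y
  have h1 := (M.z_integral a ha).isAlgebraic
  have h2 := (M.z_integral b hb).isAlgebraic
  rw [div_eq_mul_inv]
  exact h1.mul h2.inv

theorem injective_of_generates {i : Fin (M.r + 1)} (ψ : M.O i →ₐ[K] M.FA)
    (h : IntermediateField.adjoin K (Set.range ψ) = ⊤) : Function.Injective ψ := by
  rw [injective_iff_map_eq_zero]
  intro p hp
  by_contra hp0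
  haveI : Algebra.IsAlgebraic (Algebra.adjoin K (Set.range ψ)) M.FA := by
    haveI : Algebra.IsAlgebraic (IntermediateField.adjoin K (Set.range ψ)) M.FA := ⟨fun y => by
      have hy : y ∈ IntermediateField.adjoin K (Set.range ψ) := h ▸ IntermediateField.mem_top
      exact isAlgebraic_algebraMap (⟨y, hy⟩ : IntermediateField.adjoin K (Set.range ψ))⟩
    exact IntermediateField.isAlgebraic_adjoin_iff_top.mp inferInstance
  obtain ⟨T, hTsub, hT⟩ := exists_isTranscendenceBasis_subset (R := K) (A := M.FA) (Set.range ψ)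
  choose l hl using fun a : T => hTsub a.2
  have hl1 : AlgebraicIndependent K fun a : T => ψ (l a) := by simpa only [hl] using hT.1
  have hl2 : AlgebraicIndependent K l := AlgebraicIndependent.of_comp ψ hl1
  have hl3 : AlgebraicIndependent K fun a : T => (l a : M.FA) := hl2.map' (f := (M.O i).val) Subtype.val_injective
  let R := Algebra.adjoin K (Set.range fun a : T => (l a : M.FA))
  have hle : R ≤ M.O i := Algebra.adjoin_le (Set.range_subset_iff.mpr fun a => (l a).2)
  letI : Algebra R (M.O i) := (Subalgebra.inclusion hle).toAlgebra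
  haveI : IsScalarTower R (M.O i) M.FA := IsScalarTower.of_algebraMap_eq fun r => rfl
  have halg : IsAlgebraic R (p : M.FA) := by
    by_contra htr
    have h1 : AlgebraicIndependent K fun o : Option T => o.elim (p : M.FA) fun a => (l a : M.FA) := by
      refine (hl3.option_iff_transcendental (a := (p : M.FA))).mpr ?_
      exact htr
    have h2 := h1.cardinalMk_le_trdeg
    rw [Cardinal.mk_option, ← hT.cardinalMk_eq_trdeg] at h2
    have hfin : Finite T := by
      refine Cardinal.lt_aleph0_iff_finite.mp ?_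
      have hz := M.isTranscendenceBasis_z.lift_cardinalMk_eq_trdeg
      simp only [Cardinal.mk_fintype, Fintype.card_fin, Cardinal.lift_natCast, Cardinal.lift_id'] at hz
      rw [hT.cardinalMk_eq_trdeg, ← hz]
      exact Cardinal.natCast_lt_aleph0
    haveI := Fintype.ofFinite T
    rw [Cardinal.mk_fintype, ← Nat.cast_one, ← Nat.cast_add, Nat.cast_le] at h2
    omega
  have halg' : IsAlgebraic R p :=
    (isAlgebraic_algHom_iff (IsScalarTower.toAlgHom R (M.O i) M.FA) Subtype.val_injective).mp halg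
  refine Ideal.comap_ne_bot_of_algebraic_mem (I := RingHom.ker ψ.toRingHom) hp0 hp halg' ?_
  refine (Submodule.eq_bot_iff _).mpr fun r hr => ?_
  obtain ⟨q, rfl⟩ := hl3.aevalEquiv.surjective r
  have e : algebraMap R (M.O i) (hl3.aevalEquiv q) = MvPolynomial.aeval l q := Subtype.ext (by
    show ((hl3.aevalEquiv q : R) : M.FA) = (M.O i).val (MvPolynomial.aeval l q)
    rw [MvPolynomial.comp_aeval_apply]
    simp)
  have h1 : ψ (MvPolynomial.aeval l q) = 0 := by rw [← e]; exact hr
  rw [MvPolynomial.comp_aeval_apply] at h1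
  rw [hl1.eq_zero_of_aeval_eq_zero q h1, map_zero]

end Model

end Fermat.Agent.AbVar
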